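/-
S18 / wave 4 (helper59): leaf C1-ONE, half (N1).

In a `Setup K A F O x` (helper74's abstract interface), the orthonormal family `θ` of
`Setup.basis` is a `K(x)`-basis of `F`, coordinates of elements of `O` (resp. of the maximal
ideal of `O`) lie in `O` (resp. in the maximal ideal), and therefore

  **the norm `N_{F/K(x)}` of a one-unit is a one-unit** (`norm_sub_one_mem`).

Only the fields `mem_iff`, `scale`, `finite`, `basis` of the setup are used.
-/
import Mathlib
import Fermat.Agent.S18.H74.Setup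

set_option autoImplicit false

open IntermediateField

noncomputable section

namespace Fermat.Agent.S18.H59

open Fermat.Agent.S18.H74

variable {K : Type*} [Field K] {A : ValuationSubring K} {F : Type*} [Field F] [Algebra K F]
  {O : ValuationSubring F} {x : F}

/-- The nonunits of a valuation subring absorb multiplication by elements of the ring. -/
theorem mul_mem_nonunits {V : ValuationSubring F} {a b : F} (ha : a ∈ V.nonunits) (hb : b ∈ V) :
    a * b ∈ V.nonunits := by
  rw [ValuationSubring.mem_nonunits_iff] at ha ⊢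
  rw [map_mul]
  have hb' := (V.valuation_le_one_iff b).mpr hb
  exact lt_of_le_of_lt (mul_le_of_le_one_right' hb') ha

/-- The nonunits of a valuation subring are closed under addition. -/
theorem add_mem_nonunits {V : ValuationSubring F} {a b : F} (ha : a ∈ V.nonunits)
    (hb : b ∈ V.nonunits) : a + b ∈ V.nonunits := by
  rw [ValuationSubring.mem_nonunits_iff] at ha hb ⊢
  exact lt_of_le_of_lt (V.valuation.map_add a b) (max_lt ha hb)

theorem zero_mem_nonunits (V : ValuationSubring F) : (0 : F) ∈ V.nonunits := by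
  rw [ValuationSubring.mem_nonunits_iff, map_zero]
  exact zero_lt_one

/-- Nonunits lie in the ring. -/
theorem mem_of_mem_nonunits {V : ValuationSubring F} {a : F} (ha : a ∈ V.nonunits) : a ∈ V := by
  rw [ValuationSubring.mem_nonunits_iff] at ha
  exact (V.valuation_le_one_iff a).mp ha.le

/-- A valuation subring different from `⊤` misses some element. -/
theorem exists_not_mem_of_ne_top {V : ValuationSubring K} (hV : V ≠ ⊤) : ∃ a : K, a ∉ V := by
  by_contra h
  push Not at h
  exact hV (SetLike.ext fun a => ⟨fun _ => ValuationSubring.mem_top a, fun _ => h a⟩)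

section Orth

variable {μ : ℕ} {θ : Fin μ → F}

/-- An orthonormal family over `(K(x), O ∩ K(x))` is linearly independent, as soon as `O` is not
trivial on `K` and the value group of `O` is that of `K`. -/
theorem linearIndependent_of_orth (hA : A ≠ ⊤)
    (hmem : ∀ a : K, algebraMap K F a ∈ O ↔ a ∈ A)
    (hscale : ∀ f : F, f ≠ 0 → ∃ c : K, c ≠ 0 ∧ algebraMap K F c * f ∈ O ∧
      (algebraMap K F c * f)⁻¹ ∈ O)
    (horth : ∀ r : Fin μ → K⟮x⟯, (∑ i, (r i : F) * θ i) ∈ O ↔ ∀ i, (r i : F) ∈ O) :
    LinearIndependent K⟮x⟯ θ := by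
  rw [Fintype.linearIndependent_iff]
  intro g hg i₀
  by_contra hne
  have hne' : ((g i₀ : K⟮x⟯) : F) ≠ 0 := fun h => hne (by exact_mod_cast h)
  obtain ⟨c₀, hc₀, -, hw⟩ := hscale _ hne'
  obtain ⟨a, ha⟩ := exists_not_mem_of_ne_top hA
  have hcoe : ((algebraMap K K⟮x⟯ (a * c₀) : K⟮x⟯) : F) = algebraMap K F (a * c₀) := rfl
  have hsum : (∑ i, (((algebraMap K K⟮x⟯ (a * c₀) * g i : K⟮x⟯)) : F) * θ i) = 0 := by
    have h1 : ∀ i, (((algebraMap K K⟮x⟯ (a * c₀) * g i : K⟮x⟯)) : F) * θ i
        = algebraMap K F (a * c₀) * (g i • θ i) := by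
      intro i
      rw [Algebra.smul_def, IntermediateField.algebraMap_apply, IntermediateField.coe_mul, hcoe,
        mul_assoc]
    rw [Finset.sum_congr rfl fun i _ => h1 i, ← Finset.mul_sum, hg, mul_zero]
  have h0 := (horth fun i => algebraMap K K⟮x⟯ (a * c₀) * g i).mp
    (by rw [hsum]; exact O.zero_mem) i₀
  have h2 : (((algebraMap K K⟮x⟯ (a * c₀) * g i₀ : K⟮x⟯)) : F)
      = algebraMap K F a * (algebraMap K F c₀ * (g i₀ : F)) := by
    rw [IntermediateField.coe_mul, hcoe, map_mul, mul_assoc]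
  rw [h2] at h0
  have hwne : algebraMap K F c₀ * (g i₀ : F) ≠ 0 :=
    mul_ne_zero ((map_ne_zero (algebraMap K F)).mpr hc₀) hne'
  have : algebraMap K F a ∈ O := by
    have h3 : algebraMap K F a
        = (algebraMap K F a * (algebraMap K F c₀ * (g i₀ : F))) *
          (algebraMap K F c₀ * (g i₀ : F))⁻¹ := by
      rw [mul_assoc, mul_inv_cancel₀ hwne, mul_one]
    rw [h3]
    exact O.mul_mem _ _ h0 hw
  exact ha ((hmem a).mp this)

/-- Coordinates of an element of the maximal ideal of `O` lie in the maximal ideal. -/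
theorem coord_mem_nonunits (hA : A ≠ ⊤)
    (hmem : ∀ a : K, algebraMap K F a ∈ O ↔ a ∈ A)
    (hscale : ∀ f : F, f ≠ 0 → ∃ c : K, c ≠ 0 ∧ algebraMap K F c * f ∈ O ∧
      (algebraMap K F c * f)⁻¹ ∈ O)
    (horth : ∀ r : Fin μ → K⟮x⟯, (∑ i, (r i : F) * θ i) ∈ O ↔ ∀ i, (r i : F) ∈ O)
    (r : Fin μ → K⟮x⟯) (hr : (∑ i, (r i : F) * θ i) ∈ O.nonunits) (i : Fin μ) :
    (r i : F) ∈ O.nonunits := by
  by_cases hf : (∑ i, (r i : F) * θ i) = 0
  · have hli := linearIndependent_of_orth hA hmem hscale horth
    rw [Fintype.linearIndependent_iff] at hli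
    have h0 : r i = 0 := by
      refine hli r ?_ i
      rw [← hf]
      exact Finset.sum_congr rfl fun i _ => by
        rw [Algebra.smul_def, IntermediateField.algebraMap_apply]
    rw [h0]
    exact zero_mem_nonunits O
  · obtain ⟨c, hc, hcf, hcfi⟩ := hscale _ hf
    have hcF : algebraMap K F c ≠ 0 := (map_ne_zero (algebraMap K F)).mpr hc
    -- `c⁻¹` is a nonunit
    have hcinv : (algebraMap K F c)⁻¹ ∈ O.nonunits := by
      have h1 : (algebraMap K F c)⁻¹
          = (∑ i, (r i : F) * θ i) * (algebraMap K F c * ∑ i, (r i : F) * θ i)⁻¹ := by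
        rw [mul_inv, mul_comm (algebraMap K F c)⁻¹, ← mul_assoc, mul_inv_cancel₀ hf, one_mul]
      rw [h1]
      exact mul_mem_nonunits hr hcfi
    have hcoe : ((algebraMap K K⟮x⟯ c : K⟮x⟯) : F) = algebraMap K F c := rfl
    have hsum : (∑ i, (((algebraMap K K⟮x⟯ c * r i : K⟮x⟯)) : F) * θ i)
        = algebraMap K F c * ∑ i, (r i : F) * θ i := by
      rw [Finset.mul_sum]
      exact Finset.sum_congr rfl fun i _ => by
        rw [IntermediateField.coe_mul, hcoe, mul_assoc]
    have h0 := (horth fun i => algebraMap K K⟮x⟯ c * r i).mp (by rw [hsum]; exact hcf) i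
    rw [IntermediateField.coe_mul, hcoe] at h0
    have h3 : (r i : F) = (algebraMap K F c)⁻¹ * (algebraMap K F c * (r i : F)) := by
      rw [← mul_assoc, inv_mul_cancel₀ hcF, one_mul]
    rw [h3]
    exact mul_mem_nonunits hcinv h0

/-- The members of an orthonormal family lie in `O`. -/
theorem orth_mem
    (horth : ∀ r : Fin μ → K⟮x⟯, (∑ i, (r i : F) * θ i) ∈ O ↔ ∀ i, (r i : F) ∈ O)
    (j : Fin μ) : θ j ∈ O := by
  classical
  have h := (horth fun i => if i = j then 1 else 0).mpr fun i => by
    by_cases h : i = j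
    · simp only [h, if_true]; exact O.one_mem
    · simp only [h, if_false]; exact O.zero_mem
  have h1 : (∑ i, (((if i = j then (1 : K⟮x⟯) else 0 : K⟮x⟯)) : F) * θ i) = θ j := by
    rw [Finset.sum_eq_single j]
    · simp
    · intro i _ hij; simp [hij]
    · intro h; exact absurd (Finset.mem_univ j) h
  rwa [h1] at h

end Orth

/-- The orthonormal family of a setup is a `K(x)`-basis of `F`. -/
theorem exists_basis_of_setup (hA : A ≠ ⊤) (hS : Setup K A F O x) :
    ∃ b : Module.Basis (Fin (Module.finrank K⟮x⟯ F)) K⟮x⟯ F,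
      (∀ r : Fin (Module.finrank K⟮x⟯ F) → K⟮x⟯,
        (∑ i, (r i : F) * b i) ∈ O ↔ ∀ i, (r i : F) ∈ O) ∧
      ((gramDet K F x b : K⟮x⟯) : F)⁻¹ ∈ O := by
  have := hS.finite
  obtain ⟨θ, horth, hgram⟩ := hS.basis
  have hli := linearIndependent_of_orth hA hS.mem_iff hS.scale horth
  have : Nonempty (Fin (Module.finrank K⟮x⟯ F)) :=
    ⟨⟨0, Module.finrank_pos⟩⟩
  refine ⟨basisOfLinearIndependentOfCardEqFinrank hli (Fintype.card_fin _), ?_, ?_⟩
  · rw [coe_basisOfLinearIndependentOfCardEqFinrank]
    exact horth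
  · rw [coe_basisOfLinearIndependentOfCardEqFinrank]
    exact hgram

section Basis

variable {μ : ℕ} (b : Module.Basis (Fin μ) K⟮x⟯ F)

theorem sum_repr_mul (f : F) : (∑ i, ((b.repr f i : K⟮x⟯) : F) * b i) = f := by
  conv_rhs => rw [← b.sum_repr f]
  exact Finset.sum_congr rfl fun i _ => by
    rw [Algebra.smul_def, IntermediateField.algebraMap_apply]

/-- Coordinates of an element of `O` in an orthonormal basis lie in `O`. -/
theorem repr_mem
    (horth : ∀ r : Fin μ → K⟮x⟯, (∑ i, (r i : F) * b i) ∈ O ↔ ∀ i, (r i : F) ∈ O)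
    {f : F} (hf : f ∈ O) (i : Fin μ) : ((b.repr f i : K⟮x⟯) : F) ∈ O :=
  (horth fun i => b.repr f i).mp (by rw [sum_repr_mul]; exact hf) i

/-- Coordinates of an element of the maximal ideal of `O` lie in the maximal ideal. -/
theorem repr_mem_nonunits (hA : A ≠ ⊤)
    (hmem : ∀ a : K, algebraMap K F a ∈ O ↔ a ∈ A)
    (hscale : ∀ f : F, f ≠ 0 → ∃ c : K, c ≠ 0 ∧ algebraMap K F c * f ∈ O ∧
      (algebraMap K F c * f)⁻¹ ∈ O)
    (horth : ∀ r : Fin μ → K⟮x⟯, (∑ i, (r i : F) * b i) ∈ O ↔ ∀ i, (r i : F) ∈ O)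
    {f : F} (hf : f ∈ O.nonunits) (i : Fin μ) : ((b.repr f i : K⟮x⟯) : F) ∈ O.nonunits :=
  coord_mem_nonunits hA hmem hscale horth (fun i => b.repr f i)
    (by rw [sum_repr_mul]; exact hf) i

end Basis

/-- A square matrix over a valuation subring congruent to the identity modulo the maximal ideal
has determinant congruent to `1`. -/
theorem det_sub_one_mem_nonunits {n : Type*} [Fintype n] [DecidableEq n] (V : ValuationSubring F)
    (M : Matrix n n F) (hM : ∀ i j, M i j - (if i = j then 1 else 0) ∈ V.nonunits) :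
    M.det - 1 ∈ V.nonunits := by
  have hmemV : ∀ i j, M i j ∈ V := by
    intro i j
    have h := mem_of_mem_nonunits (hM i j)
    have h1 : M i j = (M i j - (if i = j then 1 else 0)) + (if i = j then 1 else 0) := by ring
    rw [h1]
    refine V.add_mem _ _ h ?_
    split_ifs
    · exact V.one_mem
    · exact V.zero_mem
  let MV : Matrix n n V := fun i j => ⟨M i j, hmemV i j⟩
  have hMV : M = V.subtype.mapMatrix MV := by
    ext i j
    rfl
  have hres : (IsLocalRing.residue V).mapMatrix MV = 1 := by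
    ext i j
    rw [RingHom.mapMatrix_apply, Matrix.map_apply, Matrix.one_apply]
    have h := hM i j
    rw [ValuationSubring.mem_nonunits_iff_exists_mem_maximalIdeal] at h
    obtain ⟨hmem, hmax⟩ := h
    have h2 : (⟨M i j - (if i = j then 1 else 0), hmem⟩ : V) = MV i j - (if i = j then 1 else 0) := by
      apply Subtype.ext
      show M i j - (if i = j then (1 : F) else 0)
        = ((MV i j - (if i = j then (1 : V) else 0) : V) : F)
      split_ifs <;> simp [MV]
    rw [h2, ← IsLocalRing.residue_eq_zero_iff, map_sub, sub_eq_zero] at hmax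
    rw [hmax]
    split_ifs <;> simp
  have hdet : IsLocalRing.residue V (MV.det - 1) = 0 := by
    rw [map_sub, RingHom.map_det, hres, Matrix.det_one, map_one, sub_self]
  rw [IsLocalRing.residue_eq_zero_iff] at hdet
  rw [ValuationSubring.mem_nonunits_iff_exists_mem_maximalIdeal]
  have hcoe : M.det - 1 = ((MV.det - 1 : V) : F) := by
    rw [hMV, ← RingHom.map_det]
    simp
  rw [hcoe]
  exact ⟨(MV.det - 1 : V).2, hdet⟩

/-- **(N1) The norm of a one-unit is a one-unit** of `(K(x), O ∩ K(x))`. -/
theorem norm_sub_one_mem (hA : A ≠ ⊤) (hS : Setup K A F O x) (y : F)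
    (hy : y - 1 ∈ O.nonunits) :
    ((Algebra.norm K⟮x⟯ y : K⟮x⟯) : F) - 1 ∈ O.nonunits := by
  classical
  have := hS.finite
  obtain ⟨b, horth, -⟩ := exists_basis_of_setup hA hS
  rw [Algebra.norm_eq_matrix_det b y]
  set M := Algebra.leftMulMatrix b y with hM
  have hentry : ∀ i j, ((M i j : K⟮x⟯) : F) - (if i = j then 1 else 0) ∈ O.nonunits := by
    intro i j
    have h1 : M i j = (if i = j then 1 else 0) + b.repr ((y - 1) * b j) i := by
      rw [hM, Algebra.leftMulMatrix_eq_repr_mul]
      have h2 : y * b j = b j + (y - 1) * b j := by ring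
      rw [h2, map_add, Finsupp.add_apply, b.repr_self, Finsupp.single_apply]
      congr 1
      by_cases hij : i = j
      · simp [hij]
      · simp [hij, Ne.symm hij]
    have h3 : ((M i j : K⟮x⟯) : F) - (if i = j then 1 else 0)
        = ((b.repr ((y - 1) * b j) i : K⟮x⟯) : F) := by
      rw [h1]
      split_ifs <;> simp
    rw [h3]
    refine repr_mem_nonunits b hA hS.mem_iff hS.scale horth ?_ i
    exact mul_mem_nonunits hy (orth_mem horth j)
  have hdet := det_sub_one_mem_nonunits O ((algebraMap K⟮x⟯ F).mapMatrix M) (fun i j => by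
    rw [RingHom.mapMatrix_apply, Matrix.map_apply, IntermediateField.algebraMap_apply]
    exact hentry i j)
  rw [← RingHom.map_det, IntermediateField.algebraMap_apply] at hdet
  exact hdet

end Fermat.Agent.S18.H59
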