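/-
S18 / wave 4 (helper59): leaf C1-ONE, half (N2).

A one-unit `r` of `(K(x), O ∩ K(x))` (in a `Setup K A F O x`) is a quotient `p(x)/q(x)` of two
polynomials with coefficients in `A`, of Gauss norm one, with the SAME reduction modulo `m_A`
(`exists_ratio_of_oneUnit`).  (The root count in residue discs is in `RatCount.lean`.)
Also: in a setup with `A ≠ ⊤` the base function is transcendental (`aeval_ne_zero_of_setup`).

Only the fields `mem_iff` and `gauss` of the setup are used.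
-/
import Mathlib
import Fermat.Agent.S18.H74.Setup
import Fermat.Agent.S18.H59.NormOneUnit

set_option autoImplicit false

open IntermediateField Polynomial

noncomputable section

namespace Fermat.Agent.S18.H59

open Fermat.Agent.S18.H74

variable {K : Type*} [Field K] {A : ValuationSubring K} {F : Type*} [Field F] [Algebra K F]
  {O : ValuationSubring F} {x : F}

/-- For `a ≠ 0`: `a` is a nonunit of the valuation subring iff `a⁻¹` is not in it. -/
theorem mem_nonunits_iff_inv_not_mem {L : Type*} [Field L] (V : ValuationSubring L) {a : L}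
    (ha : a ≠ 0) : a ∈ V.nonunits ↔ a⁻¹ ∉ V := by
  rw [ValuationSubring.mem_nonunits_iff, ← V.valuation_le_one_iff, map_inv₀,
    inv_le_one₀ (zero_lt_iff.mpr ((Valuation.ne_zero_iff _).mpr ha)), not_le]

/-- Constants: `a ∈ m_O ↔ a ∈ m_A`. -/
theorem algebraMap_mem_nonunits_iff (hmem : ∀ a : K, algebraMap K F a ∈ O ↔ a ∈ A) (a : K) :
    algebraMap K F a ∈ O.nonunits ↔ a ∈ A.nonunits := by
  by_cases ha : a = 0
  · subst ha
    rw [map_zero]
    exact ⟨fun _ => zero_mem_nonunits A, fun _ => zero_mem_nonunits O⟩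
  · have haF : algebraMap K F a ≠ 0 := (map_ne_zero (algebraMap K F)).mpr ha
    rw [mem_nonunits_iff_inv_not_mem O haF, mem_nonunits_iff_inv_not_mem A ha, ← map_inv₀, hmem]

/-- A nonzero polynomial has a coefficient of maximal valuation. -/
theorem exists_max_coeff (A : ValuationSubring K) (p : K[X]) (hp : p ≠ 0) :
    ∃ i, p.coeff i ≠ 0 ∧ ∀ j, p.coeff j * (p.coeff i)⁻¹ ∈ A := by
  obtain ⟨i, hi, hmax⟩ := Finset.exists_max_image p.support (fun i => A.valuation (p.coeff i))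
    (Polynomial.nonempty_support_iff.mpr hp)
  have hi0 : p.coeff i ≠ 0 := Polynomial.mem_support_iff.mp hi
  refine ⟨i, hi0, fun j => ?_⟩
  by_cases hj : p.coeff j = 0
  · rw [hj, zero_mul]; exact A.zero_mem
  · rw [← A.valuation_le_one_iff, map_mul, map_inv₀, ← div_eq_mul_inv,
      div_le_one₀ (zero_lt_iff.mpr ((Valuation.ne_zero_iff _).mpr hi0))]
    exact hmax j (Polynomial.mem_support_iff.mpr hj)

/-- Gauss normalisation: a nonzero polynomial is a nonzero constant times a polynomial with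
coefficients in `A`, one of which is `1`. -/
theorem exists_normalise (A : ValuationSubring K) (p : K[X]) (hp : p ≠ 0) :
    ∃ (c : K) (p₁ : K[X]), c ≠ 0 ∧ p = C c * p₁ ∧ (∀ i, p₁.coeff i ∈ A) ∧ ∃ i, p₁.coeff i = 1 := by
  obtain ⟨i, hi0, hmax⟩ := exists_max_coeff A p hp
  refine ⟨p.coeff i, C (p.coeff i)⁻¹ * p, hi0, ?_, fun j => ?_, i, ?_⟩
  · rw [← mul_assoc, ← C_mul, mul_inv_cancel₀ hi0, C_1, one_mul]
  · rw [coeff_C_mul, mul_comm]; exact hmax j
  · rw [coeff_C_mul, inv_mul_cancel₀ hi0]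

/-- In a setup with `A ≠ ⊤` the base function `x` is transcendental over `K`. -/
theorem aeval_ne_zero_of_setup (hA : A ≠ ⊤) (hS : Setup K A F O x) {p : K[X]} (hp : p ≠ 0) :
    aeval x p ≠ 0 := by
  intro h0
  obtain ⟨c, p₁, hc, hpeq, hcoeff, i, hi⟩ := exists_normalise A p hp
  have h1 : aeval x p₁ = 0 := by
    rw [hpeq, map_mul, aeval_C] at h0
    exact (mul_eq_zero.mp h0).resolve_left ((map_ne_zero (algebraMap K F)).mpr hc)
  obtain ⟨a, ha⟩ := exists_not_mem_of_ne_top hA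
  have hainv : a⁻¹ ∈ A := (A.mem_or_inv_mem a).resolve_left ha
  have hcoeffq : ∀ j, (C a⁻¹ + p₁ * X).coeff j ∈ A := by
    intro j
    rcases j with _ | j
    · rw [coeff_add, coeff_C_zero, mul_coeff_zero, coeff_X_zero, mul_zero, add_zero]
      exact hainv
    · rw [coeff_add, coeff_C_succ, zero_add, coeff_mul_X]
      exact hcoeff j
  have hunit : ∃ j, (C a⁻¹ + p₁ * X).coeff j ≠ 0 ∧ ((C a⁻¹ + p₁ * X).coeff j)⁻¹ ∈ A := by
    refine ⟨i + 1, ?_, ?_⟩
    · rw [coeff_add, coeff_C_succ, zero_add, coeff_mul_X, hi]; exact one_ne_zero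
    · rw [coeff_add, coeff_C_succ, zero_add, coeff_mul_X, hi, inv_one]; exact A.one_mem
  have hg := (hS.gauss _ hcoeffq hunit).2
  rw [map_add, map_mul, h1, zero_mul, add_zero, aeval_C, ← map_inv₀, inv_inv, hS.mem_iff] at hg
  exact ha hg

/-- If `p(x) ∈ m_O` for a polynomial `p` then all coefficients of `p` lie in `m_A`
(in a setup: `gauss` + `mem_iff`). -/
theorem coeff_mem_nonunits_of_aeval (hA : A ≠ ⊤) (hS : Setup K A F O x) (p : K[X])
    (hp : aeval x p ∈ O.nonunits) (j : ℕ) : p.coeff j ∈ A.nonunits := by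
  by_cases hp0 : p = 0
  · rw [hp0, coeff_zero]; exact zero_mem_nonunits A
  obtain ⟨c, p₁, hc, hpeq, hcoeff, i, hi⟩ := exists_normalise A p hp0
  have hg := hS.gauss p₁ hcoeff
    ⟨i, by rw [hi]; exact one_ne_zero, by rw [hi, inv_one]; exact A.one_mem⟩
  have hp₁0 : p₁ ≠ 0 := by
    intro h
    rw [h, coeff_zero] at hi
    exact zero_ne_one hi
  have hne : aeval x p₁ ≠ 0 := aeval_ne_zero_of_setup hA hS hp₁0
  have hcF : algebraMap K F c ∈ O.nonunits := by
    have h1 : algebraMap K F c = aeval x p * (aeval x p₁)⁻¹ := by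
      rw [hpeq, map_mul, aeval_C, mul_assoc, mul_inv_cancel₀ hne, mul_one]
    rw [h1]
    exact mul_mem_nonunits hp hg.2
  have hcA : c ∈ A.nonunits := (algebraMap_mem_nonunits_iff hS.mem_iff c).mp hcF
  rw [hpeq, coeff_C_mul]
  exact mul_mem_nonunits hcA (hcoeff j)

/-- **(N2a)** A one-unit of `(K(x), O ∩ K(x))` is `p(x)/q(x)` with `p, q` of Gauss norm one over
`A` and `p ≡ q` modulo `m_A`. -/
theorem exists_ratio_of_oneUnit (hA : A ≠ ⊤) (hS : Setup K A F O x) (r : K⟮x⟯)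
    (hr : (r : F) - 1 ∈ O.nonunits) :
    ∃ p q : K[X], (∀ i, p.coeff i ∈ A) ∧ (∀ i, q.coeff i ∈ A) ∧
      (∃ i, p.coeff i ≠ 0 ∧ (p.coeff i)⁻¹ ∈ A) ∧ (∃ i, q.coeff i ≠ 0 ∧ (q.coeff i)⁻¹ ∈ A) ∧
      (∀ i, p.coeff i - q.coeff i ∈ A.nonunits) ∧ p ≠ 0 ∧ q ≠ 0 ∧
      aeval x q ≠ 0 ∧ (r : F) * aeval x q = aeval x p := by
  have hr0 : (r : F) ≠ 0 := by
    intro h
    rw [h, zero_sub, ValuationSubring.mem_nonunits_iff, Valuation.map_neg, map_one] at hr
    exact lt_irrefl _ hr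
  obtain ⟨p₀, q₀, hpq⟩ := (IntermediateField.mem_adjoin_simple_iff K (r : F)).mp r.2
  have hq₀x : aeval x q₀ ≠ 0 := by
    intro h
    rw [h, div_zero] at hpq
    exact hr0 hpq
  have hq₀ : q₀ ≠ 0 := by
    rintro rfl
    exact hq₀x (map_zero _)
  obtain ⟨c, q, hc, hqeq, hqcoeff, i, hi⟩ := exists_normalise A q₀ hq₀
  have hcF : algebraMap K F c ≠ 0 := (map_ne_zero (algebraMap K F)).mpr hc
  have hq0 : q ≠ 0 := by
    intro h
    rw [h, coeff_zero] at hi
    exact zero_ne_one hi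
  have hqx : aeval x q ≠ 0 := aeval_ne_zero_of_setup hA hS hq0
  have hqunit : ∃ i, q.coeff i ≠ 0 ∧ (q.coeff i)⁻¹ ∈ A :=
    ⟨i, by rw [hi]; exact one_ne_zero, by rw [hi, inv_one]; exact A.one_mem⟩
  have hgq := hS.gauss q hqcoeff hqunit
  -- `p := c⁻¹ p₀`
  have hrel : (r : F) * aeval x q = aeval x (C c⁻¹ * p₀) := by
    rw [hpq, hqeq, map_mul, map_mul, aeval_C, aeval_C, map_inv₀]
    field_simp
  -- `(p - q)(x) = (r - 1) q(x) ∈ m_O`
  have hdiff : aeval x (C c⁻¹ * p₀ - q) ∈ O.nonunits := by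
    have h1 : aeval x (C c⁻¹ * p₀ - q) = ((r : F) - 1) * aeval x q := by
      rw [map_sub, ← hrel]; ring
    rw [h1]
    exact mul_mem_nonunits hr hgq.1
  have hd : ∀ j, (C c⁻¹ * p₀).coeff j - q.coeff j ∈ A.nonunits := fun j => by
    rw [← coeff_sub]
    exact coeff_mem_nonunits_of_aeval hA hS _ hdiff j
  have hpcoeff : ∀ j, (C c⁻¹ * p₀).coeff j ∈ A := fun j => by
    have h1 : (C c⁻¹ * p₀).coeff j = ((C c⁻¹ * p₀).coeff j - q.coeff j) + q.coeff j := by ring
    rw [h1]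
    exact A.add_mem _ _ (mem_of_mem_nonunits (hd j)) (hqcoeff j)
  have hpunit : ∃ i, (C c⁻¹ * p₀).coeff i ≠ 0 ∧ ((C c⁻¹ * p₀).coeff i)⁻¹ ∈ A := by
    have h1 := hd i
    rw [hi] at h1
    have hne : (C c⁻¹ * p₀).coeff i ≠ 0 := by
      intro h
      rw [h, zero_sub, ValuationSubring.mem_nonunits_iff, Valuation.map_neg, map_one] at h1
      exact lt_irrefl _ h1
    refine ⟨i, hne, ?_⟩
    by_contra hinv
    have h2 := (mem_nonunits_iff_inv_not_mem A hne).mpr hinv
    have h3 : (1 : K) ∈ A.nonunits := by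
      have h4 : (1 : K) = (C c⁻¹ * p₀).coeff i + -((C c⁻¹ * p₀).coeff i - 1) := by ring
      rw [h4]
      refine add_mem_nonunits h2 ?_
      rw [ValuationSubring.mem_nonunits_iff, Valuation.map_neg]
      exact (ValuationSubring.mem_nonunits_iff A).mp h1
    rw [ValuationSubring.mem_nonunits_iff, map_one] at h3
    exact lt_irrefl _ h3
  have hp0 : C c⁻¹ * p₀ ≠ 0 := by
    obtain ⟨i, hi, -⟩ := hpunit
    intro h
    rw [h, coeff_zero] at hi
    exact hi rfl
  exact ⟨C c⁻¹ * p₀, q, hpcoeff, hqcoeff, hpunit, hqunit, hd, hp0, hq0, hqx, hrel⟩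

end Fermat.Agent.S18.H59
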