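/-
S18 / wave 4 (helper59): leaf C1-ONE, half (N2), the count.

Two polynomials of Gauss norm one over `A` which are congruent modulo `m_A` have the same number
of roots (with multiplicity) in every residue disc `b + m_A` (`countP_roots_eq_of_congr`); hence
for a one-unit `r = p(x)/q(x)` of `(K(x), O ∩ K(x))` in a `Setup`: "zeros minus poles of `r` in a
residue disc is `0`" (`oneUnit_ratio_count`, in the exact shape of the hypothesis `hN2` of
`Fermat.Agent.S18.H18.sum_ord_eq_zero_of_oneUnit_of_inputs`).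
-/
import Mathlib
import Fermat.Agent.S18.H74.Setup
import Fermat.Agent.S18.H59.DiscCount
import Fermat.Agent.S18.H59.RatOneUnit

set_option autoImplicit false

open IntermediateField Polynomial

noncomputable section

namespace Fermat.Agent.S18.H59

open Fermat.Agent.S18.H74

variable {K : Type*} [Field K] {A : ValuationSubring K} {F : Type*} [Field F] [Algebra K F]
  {O : ValuationSubring F} {x : F}

open Classical in
/-- **(N2b) Zeros minus poles of a one-unit of `K(x)` in a residue disc is `0`**: two polynomials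
of Gauss norm one over `A` that are congruent modulo `m_A` have the same number of roots (with
multiplicity) in every residue disc `b + m_A`. -/
theorem countP_roots_eq_of_congr [IsAlgClosed K]
    (p q : K[X]) (hp : ∀ i, p.coeff i ∈ A)
    (hq : ∀ i, q.coeff i ∈ A) (hpu : ∃ i, p.coeff i ≠ 0 ∧ (p.coeff i)⁻¹ ∈ A)
    (hqu : ∃ i, q.coeff i ≠ 0 ∧ (q.coeff i)⁻¹ ∈ A)
    (hpq : ∀ i, p.coeff i - q.coeff i ∈ A.nonunits) (b : K) (hb : b ∈ A) :
    p.roots.countP (fun c => c - b ∈ A.nonunits) = q.roots.countP (fun c => c - b ∈ A.nonunits) := by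
  obtain ⟨f, hf, -, hfc⟩ := G1.countP_roots_sub_mem_nonunits A p hp hpu ⟨b, hb⟩
  obtain ⟨g, hg, -, hgc⟩ := G1.countP_roots_sub_mem_nonunits A q hq hqu ⟨b, hb⟩
  have hfg : f.map (IsLocalRing.residue A) = g.map (IsLocalRing.residue A) := by
    ext j
    rw [coeff_map, coeff_map, ← sub_eq_zero, ← map_sub, IsLocalRing.residue_eq_zero_iff]
    have h1 := hpq j
    rw [ValuationSubring.mem_nonunits_iff_exists_mem_maximalIdeal] at h1
    obtain ⟨hmem, hmax⟩ := h1
    have h2 : (⟨p.coeff j - q.coeff j, hmem⟩ : A) = f.coeff j - g.coeff j := by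
      apply Subtype.ext
      have hfj : ((f.coeff j : A) : K) = p.coeff j := by
        rw [← hf, coeff_map]; rfl
      have hgj : ((g.coeff j : A) : K) = q.coeff j := by
        rw [← hg, coeff_map]; rfl
      show p.coeff j - q.coeff j = ((f.coeff j - g.coeff j : A) : K)
      rw [← hfj, ← hgj]
      rfl
    rwa [h2] at hmax
  have e1 : p.roots.countP (fun c => c - b ∈ A.nonunits)
      = (f.map (IsLocalRing.residue A)).rootMultiplicity (IsLocalRing.residue A ⟨b, hb⟩) := hfc
  have e2 : q.roots.countP (fun c => c - b ∈ A.nonunits)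
      = (g.map (IsLocalRing.residue A)).rootMultiplicity (IsLocalRing.residue A ⟨b, hb⟩) := hgc
  rw [e1, e2, hfg]

open scoped Classical in
/-- **(N2)** in the shape consumed by `H18.sum_ord_eq_zero_of_oneUnit_of_inputs` (`hN2`). -/
theorem oneUnit_ratio_count [IsAlgClosed K] (hA : A ≠ ⊤) (hS : Setup K A F O x) (b : K)
    (hb : b ∈ A) (r : K⟮x⟯) (hr : (r : F) - 1 ∈ O.nonunits) :
    ∃ p q : K[X], aeval x q ≠ 0 ∧ (r : F) * aeval x q = aeval x p ∧
      p.roots.countP (fun c => c - b ∈ A.nonunits) =
        q.roots.countP (fun c => c - b ∈ A.nonunits) := by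
  obtain ⟨p, q, hp, hq, hpu, hqu, hpq, -, -, hqx, hrel⟩ := exists_ratio_of_oneUnit hA hS r hr
  exact ⟨p, q, hqx, hrel, countP_roots_eq_of_congr p q hp hq hpu hqu hpq b hb⟩

end Fermat.Agent.S18.H59
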