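/-
S18 / Program J, leaf C1, residue side (helper59): the ring `Rbar = red(R_b)` for a `Setup`.

For `hS : Setup K A F O x`, `A ≠ ⊤`, `b ∈ A`:
* `discResidue`            : the landed `H4.DiscResidue` package holds for
                             `OL = O ∩ K(x)`, `red = residue`, `R = H5.Rbar A O x b`;
* `isDVR_Rbar`             : `Rbar` is a discrete valuation ring;
* `isFractionRing_Rbar`    : its fraction field is the residue field `κ_L` of `O ∩ K(x)`;
* `unif hS b hb`           : the uniformiser `ϖ = red (x - b)`; `irreducible_unif`;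
* `residue_subL_eq`        : `red (x - b0) = red (x - b)` for `b0` in the residue disc of `b`;
* `constRbar hS b`         : the ring homomorphism `A → Rbar`, `a ↦ red a`;
* `exists_const_dvd_sub`   : the residue field of `Rbar` is the one of `A`:
                             every `z ∈ Rbar` is `red a + ϖ * t` with `a ∈ A`;
* `unif_dvd_constRbar_iff` : `ϖ ∣ red a ↔ a ∈ m_A`.
-/
import Fermat.Agent.S18.H5.Defs
import Fermat.Agent.S18.H4.DiscDVR
import Fermat.Agent.S18.H42.Fibres
import Fermat.Agent.S18.H22.Subspaces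
import Fermat.Agent.S18.H80.ResK
import Fermat.Agent.S24.H95.Degree

set_option autoImplicit false

open AlgebraicCurve IntermediateField Polynomial IsLocalRing

noncomputable section

namespace Fermat.Agent.S18.H59

open Fermat.Agent.S18.H74 Fermat.Agent.S18.H80 Fermat.Agent.S18.H5 Fermat.Agent.S18.H4

variable {K : Type*} [Field K] {A : ValuationSubring K} {F : Type*} [Field F] [Algebra K F]
  {O : ValuationSubring F} {x : F}

/-! ### Elements of the disc ring -/

/-- Constants of `A` lie in every disc ring. -/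
theorem const_mem_discRing (hS : Setup K A F O x) (b : K) {a : K} (ha : a ∈ A) :
    algebraMap K F a ∈ discRing A O x b :=
  ⟨(hS.mem_iff a).2 ha, fun P _ => (Fermat.Agent.S24.H95.ord_algebraMap P a).ge⟩

/-- `x` lies in every disc ring. -/
theorem x_mem_discRing (hS : Setup K A F O x) (b : K) : x ∈ discRing A O x b := by
  refine ⟨H4.mem_of_gauss hS.gauss, ?_⟩
  rintro P ⟨c', -, hP⟩
  exact H4.ord_nonneg_of_ord_sub_pos x P c' hP

/-- `x - c` lies in every disc ring, for `c ∈ A`. -/
theorem x_sub_mem_discRing (hS : Setup K A F O x) (b : K) {c : K} (hc : c ∈ A) :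
    x - algebraMap K F c ∈ discRing A O x b :=
  (discSubring A O x b).sub_mem (x_mem_discRing hS b) (const_mem_discRing hS b hc)

/-- A point of the residue disc of an integral centre is integral. -/
theorem mem_of_sub_mem_nonunits {b b0 : K} (hb : b ∈ A) (h : b0 - b ∈ A.nonunits) : b0 ∈ A := by
  have h1 : b0 - b ∈ A := ValuationSubring.nonunits_le h
  have := A.add_mem _ _ h1 hb
  simpa using this

/-- Polynomials with coefficients in `A` take values in `A` on `A`. -/
theorem eval_mem_of_coeff_mem {f : K[X]} (hf : ∀ i, f.coeff i ∈ A) {b : K} (hb : b ∈ A) :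
    f.eval b ∈ A := by
  rw [eval_eq_sum_range]
  exact sum_mem fun i _ => A.mul_mem _ _ (hf i) (pow_mem hb i)

/-! ### The uniformiser and the constants of `Rbar` -/

/-- `x - c` as an element of `O ∩ K(x)`, for `c ∈ A`. -/
def subL (hS : Setup K A F O x) (c : K) (hc : c ∈ A) : ↥(OL (K := K) O x) :=
  ⟨⟨x - algebraMap K F c,
      sub_mem (mem_adjoin_simple_self K x) (IntermediateField.algebraMap_mem _ c)⟩,
    (x_sub_mem_discRing hS c hc).1⟩

theorem subL_coe (hS : Setup K A F O x) (c : K) (hc : c ∈ A) :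
    (((subL hS c hc : ↥(OL (K := K) O x)) : K⟮x⟯) : F) = x - algebraMap K F c := rfl

/-- The uniformiser `ϖ = red (x - b)` of `Rbar`. -/
def unif (hS : Setup K A F O x) (b : K) (hb : b ∈ A) : ↥(Rbar A O x b) :=
  ⟨residue ↥(OL (K := K) O x) (subL hS b hb),
    residue_mem_Rbar A O x b (x_sub_mem_discRing hS b hb)⟩

theorem unif_coe (hS : Setup K A F O x) (b : K) (hb : b ∈ A) :
    ((unif hS b hb : ↥(Rbar A O x b)) : ResidueField ↥(OL (K := K) O x)) =
      residue ↥(OL (K := K) O x) (subL hS b hb) := rfl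

/-- `red (x - b0) = red (x - b)` for `b0` in the residue disc of `b`. -/
theorem residue_subL_eq (hS : Setup K A F O x) {b b0 : K} (hb : b ∈ A) (hb0 : b0 ∈ A)
    (h : b0 - b ∈ A.nonunits) :
    residue ↥(OL (K := K) O x) (subL hS b0 hb0) = residue ↥(OL (K := K) O x) (subL hS b hb) := by
  rw [← sub_eq_zero, ← map_sub, residue_eq_zero_iff, mem_maximalIdeal_OL_iff]
  have h1 : (((subL hS b0 hb0 - subL hS b hb : ↥(OL (K := K) O x)) : K⟮x⟯) : F) =
      algebraMap K F (-(b0 - b)) := by
    change (x - algebraMap K F b0) - (x - algebraMap K F b) = _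
    rw [map_neg, map_sub]
    ring
  rw [h1]
  exact (H4.algebraMap_mem_nonunits_iff hS.mem_iff _).2 (A.nonunits.neg_mem h)

/-- The ring homomorphism `A → Rbar`, `a ↦ red a`. -/
def constRbar (hS : Setup K A F O x) (b : K) : ↥A →+* ↥(Rbar A O x b) :=
  ((residue ↥(OL (K := K) O x)).comp (inclAL (x := x) hS.mem_iff)).codRestrict (Rbar A O x b)
    (fun a => residue_mem_Rbar A O x b (const_mem_discRing hS b a.2))

theorem constRbar_coe (hS : Setup K A F O x) (b : K) (a : ↥A) :
    ((constRbar hS b a : ↥(Rbar A O x b)) : ResidueField ↥(OL (K := K) O x)) =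
      residue ↥(OL (K := K) O x) (inclAL (x := x) hS.mem_iff a) := rfl

/-- `red a = 0` for `a ∈ m_A`. -/
theorem constRbar_eq_zero_iff (hS : Setup K A F O x) (b : K) (a : ↥A) :
    constRbar hS b a = 0 ↔ (a : K) ∈ A.nonunits := by
  rw [← Subtype.coe_inj, constRbar_coe, ZeroMemClass.coe_zero, residue_eq_zero_iff,
    mem_maximalIdeal_OL_iff, inclAL_coe]
  exact H4.algebraMap_mem_nonunits_iff hS.mem_iff _

/-! ### The `DiscResidue` package -/

/-- The landed residue package of helper4 holds for `O ∩ K(x)`, its residue map and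
`Rbar = red(R_b)`. -/
theorem discResidue [IsAlgClosed K] [CharZero K] (hA : A ≠ ⊤) (hS : Setup K A F O x)
    {b : K} (hb : b ∈ A) :
    DiscResidue A O x b (OL (K := K) O x) (residue ↥(OL (K := K) O x)) (Rbar A O x b) := by
  have hfin : FiniteDimensional K⟮x⟯ F := hS.finite
  have hx : Transcendental K x :=
    Fermat.Agent.S18.H22.transcendental_of_gauss hA hS.mem_iff hS.gauss
  exact
    { mem_iff := hS.mem_iff
      gauss := hS.gauss
      mem_A := hb
      fib := fun c _ => Fermat.Agent.S18.H42.exists_over x hx c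
      mem_OL := fun _ => Iff.rfl
      red_eq_zero := fun r => by rw [residue_eq_zero_iff, mem_maximalIdeal_OL_iff]
      mem_R := fun _ => mem_Rbar A O x b }

/-- `Rbar` is a discrete valuation ring. -/
theorem isDVR_Rbar [IsAlgClosed K] [CharZero K] (hA : A ≠ ⊤) (hS : Setup K A F O x)
    {b : K} (hb : b ∈ A) : IsDiscreteValuationRing ↥(Rbar A O x b) :=
  (discResidue hA hS hb).isDiscreteValuationRing

/-- The fraction field of `Rbar` is the residue field of `O ∩ K(x)`. -/
theorem isFractionRing_Rbar [IsAlgClosed K] [CharZero K] (hA : A ≠ ⊤) (hS : Setup K A F O x)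
    {b : K} (hb : b ∈ A) :
    IsFractionRing ↥(Rbar A O x b) (ResidueField ↥(OL (K := K) O x)) :=
  (discResidue hA hS hb).isFractionRing residue_surjective

/-- `ϖ = red (x - b)` is a uniformiser of `Rbar`. -/
theorem irreducible_unif [IsAlgClosed K] [CharZero K] (hA : A ≠ ⊤) (hS : Setup K A F O x)
    {b : K} (hb : b ∈ A) : Irreducible (unif hS b hb) :=
  (discResidue hA hS hb).irreducible (subL_coe hS b hb) (unif_coe hS b hb)

theorem unif_ne_zero [IsAlgClosed K] [CharZero K] (hA : A ≠ ⊤) (hS : Setup K A F O x)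
    {b : K} (hb : b ∈ A) : unif hS b hb ≠ 0 :=
  (irreducible_unif hA hS hb).ne_zero

theorem not_isUnit_unif [IsAlgClosed K] [CharZero K] (hA : A ≠ ⊤) (hS : Setup K A F O x)
    {b : K} (hb : b ∈ A) : ¬ IsUnit (unif hS b hb) :=
  (irreducible_unif hA hS hb).not_isUnit

/-! ### The residue field of `Rbar` is the residue field of `A` -/

/-- `ϖ ∣ red a ↔ a ∈ m_A`. -/
theorem unif_dvd_constRbar_iff [IsAlgClosed K] [CharZero K] (hA : A ≠ ⊤) (hS : Setup K A F O x)
    {b : K} (hb : b ∈ A) (a : ↥A) :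
    unif hS b hb ∣ constRbar hS b a ↔ (a : K) ∈ A.nonunits := by
  constructor
  · intro hdvd
    by_contra ha
    rw [ValuationSubring.coe_mem_nonunits_iff, IsLocalRing.mem_maximalIdeal, mem_nonunits_iff,
      not_not] at ha
    exact not_isUnit_unif hA hS hb (isUnit_of_dvd_unit hdvd (ha.map (constRbar hS b)))
  · intro ha
    rw [(constRbar_eq_zero_iff hS b a).2 ha]
    exact dvd_zero _

/-- A polynomial with coefficients in `A` vanishing at `b ∈ A` is `(X - b)` times a polynomial
with coefficients in `A`. -/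
theorem exists_eq_X_sub_C_mul {g : K[X]} (hg : ∀ i, g.coeff i ∈ A) {b : K} (hb : b ∈ A)
    (hgb : g.eval b = 0) :
    ∃ g₁ : K[X], (∀ i, g₁.coeff i ∈ A) ∧ g = (X - C b) * g₁ := by
  obtain ⟨f, hf⟩ := (H4.coeff_mem_iff_mem_range g).1 hg
  have hf' : f.map (algebraMap ↥A K) = g := hf
  have hroot : f.IsRoot ⟨b, hb⟩ := by
    have h1 : algebraMap ↥A K (f.eval ⟨b, hb⟩) = 0 := by
      rw [← Polynomial.eval_map_apply, hf']
      exact hgb
    exact (map_eq_zero_iff _ (IsFractionRing.injective ↥A K)).1 h1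
  obtain ⟨f₁, hf₁⟩ := dvd_iff_isRoot.2 hroot
  refine ⟨f₁.map (algebraMap ↥A K), (H4.coeff_mem_iff_mem_range _).2 ⟨f₁, rfl⟩, ?_⟩
  rw [← hf', hf₁, Polynomial.map_mul, Polynomial.map_sub, Polynomial.map_X, Polynomial.map_C]
  rfl

/-- **The residue field of `Rbar` is the residue field of `A`**: every element of `Rbar` is
congruent modulo `ϖ` to the reduction of a constant of `A`. -/
theorem exists_const_dvd_sub [IsAlgClosed K] [CharZero K] (hA : A ≠ ⊤) (hS : Setup K A F O x)
    {b : K} (hb : b ∈ A) (z : ↥(Rbar A O x b)) :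
    ∃ a : ↥A, unif hS b hb ∣ z - constRbar hS b a := by
  have h := discResidue hA hS hb
  obtain ⟨r, hr, hrz⟩ := (mem_Rbar A O x b).1 z.2
  by_cases hn : ((r : K⟮x⟯) : F) ∈ O.nonunits
  · -- `z = 0`
    refine ⟨0, ?_⟩
    have hz : z = 0 := by
      apply Subtype.ext
      rw [← hrz, (h.red_eq_zero r).2 hn]
      rfl
    rw [hz, map_zero, sub_zero]
    exact dvd_zero _
  · rw [ValuationSubring.mem_nonunits_iff_or, not_or, not_not] at hn
    obtain ⟨hr0, hrO'⟩ := hn
    obtain ⟨p, q, hp, hq, -, hqc, hpq⟩ :=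
      exists_disc_normal_form hS.mem_iff hS.gauss b h.fib r.1.2 hr0 hr.1 hrO' hr.2
    -- the value of `r` at `b`
    have hqb : q.eval b ∉ A.nonunits := eval_notMem_nonunits hq hb hqc
    rw [ValuationSubring.mem_nonunits_iff_or, not_or, not_not] at hqb
    obtain ⟨hqb0, hqbinv⟩ := hqb
    have hpb : p.eval b ∈ A := eval_mem_of_coeff_mem hp.1 hb
    obtain ⟨a, ha⟩ : ∃ a : K, a = p.eval b * (q.eval b)⁻¹ := ⟨_, rfl⟩
    have haA : a ∈ A := by rw [ha]; exact A.mul_mem _ _ hpb hqbinv
    -- `p - a q = (X - b) g₁`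
    have hgcoeff : ∀ i, (p - C a * q).coeff i ∈ A := by
      intro i
      rw [coeff_sub, coeff_C_mul]
      exact sub_mem (hp.1 i) (A.mul_mem _ _ haA (hq.1 i))
    have hgb : (p - C a * q).eval b = 0 := by
      rw [eval_sub, eval_mul, eval_C, ha]
      field_simp
      ring
    obtain ⟨g₁, hg₁, hg⟩ := exists_eq_X_sub_C_mul hgcoeff hb hgb
    -- the quotient `t = g₁(x) / q(x)`
    have hqx0 : aeval x q ≠ 0 := by
      obtain ⟨P, hP⟩ := h.fib b (by rw [sub_self]; exact A.nonunits.zero_mem)
      exact (ord_aeval_eq_zero x P b hP (hqc b (by rw [sub_self]; exact A.nonunits.zero_mem))).1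
    have hqxinv : (aeval x q)⁻¹ ∈ O := (hS.gauss q hq.1 hq.2).2
    have hg₁O : aeval x g₁ ∈ O := aeval_mem_of_coeff_mem hS.mem_iff hS.gauss hg₁
    have htd : aeval x g₁ * (aeval x q)⁻¹ ∈ discRing A O x b := by
      refine ⟨O.mul_mem _ _ hg₁O hqxinv, ?_⟩
      rintro P ⟨c, hc, hP⟩
      rw [ord_nonneg_iff_mem]
      refine P.toValuationSubring.mul_mem _ _ ?_ ?_
      · rw [← ord_nonneg_iff_mem]
        exact ord_aeval_nonneg x P (ord_nonneg_of_ord_sub_pos x P c hP) g₁
      · rw [← ord_nonneg_iff_mem, P.ord_inv, (ord_aeval_eq_zero x P c hP (hqc c hc)).2, neg_zero]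
    have htK : aeval x g₁ * (aeval x q)⁻¹ ∈ K⟮x⟯ :=
      mul_mem (aeval_mem_adjoin_simple x g₁) (inv_mem (aeval_mem_adjoin_simple x q))
    set t : ↥(OL (K := K) O x) := ⟨⟨aeval x g₁ * (aeval x q)⁻¹, htK⟩, htd.1⟩ with ht
    have hkey : r - inclAL (x := x) hS.mem_iff ⟨a, haA⟩ = subL hS b hb * t := by
      apply Subtype.ext
      apply Subtype.ext
      change ((r : K⟮x⟯) : F) - algebraMap K F a =
        (x - algebraMap K F b) * (aeval x g₁ * (aeval x q)⁻¹)
      have h1 : aeval x (p - C a * q) = aeval x ((X - C b) * g₁) := by rw [hg]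
      simp only [map_sub, map_mul, aeval_C, aeval_X] at h1
      have h2 : (((r : K⟮x⟯) : F) - algebraMap K F a) * aeval x q =
          (x - algebraMap K F b) * aeval x g₁ := by
        rw [sub_mul, hpq]
        exact h1
      rw [← mul_assoc, ← h2, mul_assoc, mul_inv_cancel₀ hqx0, mul_one]
    refine ⟨⟨a, haA⟩, ⟨⟨residue _ t, residue_mem_Rbar A O x b htd⟩, ?_⟩⟩
    apply Subtype.ext
    change (z : ResidueField ↥(OL (K := K) O x)) -
        residue ↥(OL (K := K) O x) (inclAL (x := x) hS.mem_iff ⟨a, haA⟩) =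
      residue ↥(OL (K := K) O x) (subL hS b hb) * residue ↥(OL (K := K) O x) t
    rw [← hrz, ← map_sub, ← map_mul, hkey]

end Fermat.Agent.S18.H59
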