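/-
S18 / Program J, leaf C1, residue side (helper59): the nilpotent inputs of the local discriminant
lemma `H8.discLocal` for the Key Lemma.

Setting: `hS : Setup K A F O x`, `A ≠ ⊤`, `b ∈ A`, an orthonormal `K(x)`-basis `θ` with residue
data `D : H80.ResData A O x θ`, lying in the disc ring `S_b` and with `S_b = ⊕ R_b θ_i`
(`hmem`, `hcoord` = the fields `mem`, `coord` of `H49.IsMinTuple`), and the nilpotents
`Y_k = ∑ v k i • θ i` of `H49.KeyHyp` (`hvA`, `hvind`, `hnil`).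

* `thetaBar_mem_Sbar`, `exists_coeff_of_mem_Sbar` : `Sbar = ⊕ Rbar θbar_i`
  (the inputs `hbB`, `hBb` of `discLocal` for the basis `D.basisRes`);
* `nilBar`                : the reductions `ybar_k` of the `Y_k`;
* `nilBar_mem_Sbar`       : `hyB`;
* `nilBar_pow`            : `hyNil`  (`ybar_k ^ m = ϖ • wbar`);
* `dvd_of_sum_nilBar`     : `hyInd`  (independence of the `ybar_k` modulo `ϖ Sbar`);
* `exists_nilBar`         : the three statements packaged, for any presentation `ϖ = red (x - b)`.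
-/
import Fermat.Agent.S18.H59.KeyRes

set_option autoImplicit false

open AlgebraicCurve IntermediateField Polynomial IsLocalRing

noncomputable section

namespace Fermat.Agent.S18.H59

open Fermat.Agent.S18.H74 Fermat.Agent.S18.H80 Fermat.Agent.S18.H5 Fermat.Agent.S18.H4

variable {K : Type*} [Field K] {A : ValuationSubring K} {F : Type*} [Field F] [Algebra K F]
  {O : ValuationSubring F} {x : F} {b : K} {μ : ℕ} {θ : Fin μ → F}

/-! ### `Sbar = ⊕ Rbar θbar_i` -/

/-- The action of `Rbar` on the residue field of `O` is the one of its ambient field. -/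
theorem Rbar_smul_def (c : ↥(Rbar A O x b)) (y : ResidueField ↥O) :
    c • y = (c : ResidueField ↥(OL (K := K) O x)) • y := rfl

/-- `hbB`: the reductions of the `θ i` lie in `Sbar`. -/
theorem thetaBar_mem_Sbar (D : ResData A O x θ) (hmem : ∀ i, θ i ∈ discRing A O x b)
    (i : Fin μ) : D.thetaBar i ∈ Sbar A O x b :=
  residue_mem_Sbar A O x b (f := ⟨θ i, D.theta_mem i⟩) (hmem i)

/-- `hBb`: every element of `Sbar` is an `Rbar`-combination of the reductions of the `θ i`. -/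
theorem exists_coeff_of_mem_Sbar (D : ResData A O x θ)
    (hcoord : ∀ r : Fin μ → K⟮x⟯, (∑ i, (r i : F) * θ i) ∈ discRing A O x b →
      ∀ i, (r i : F) ∈ discRing A O x b)
    {z : ResidueField ↥O} (hz : z ∈ Sbar A O x b) :
    ∃ c : Fin μ → ↥(Rbar A O x b), z = ∑ i, c i • D.thetaBar i := by
  obtain ⟨f, hf, rfl⟩ := (mem_Sbar A O x b).1 hz
  have hsum := D.sum_repr (f : F)
  have hri : ∀ i, ((D.basisF.repr (f : F) i : K⟮x⟯) : F) ∈ discRing A O x b :=
    hcoord (fun i => D.basisF.repr (f : F) i) (by rw [hsum]; exact hf)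
  set ρ : Fin μ → ↥(OL (K := K) O x) := fun i => ⟨D.basisF.repr (f : F) i, (hri i).1⟩ with hρ
  refine ⟨fun i => ⟨residue _ (ρ i), residue_mem_Rbar A O x b (hri i)⟩, ?_⟩
  have h1 : (∑ i, (⟨residue _ (ρ i), residue_mem_Rbar A O x b (hri i)⟩ : ↥(Rbar A O x b)) •
      D.thetaBar i) = ∑ i, residue ↥(OL (K := K) O x) (ρ i) • D.thetaBar i := rfl
  rw [h1, D.sum_residue_smul_thetaBar]
  congr 1
  apply Subtype.ext
  exact hsum.symm

/-- Linear independence of the `θbar_i` over `Rbar`. -/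
theorem eq_zero_of_sum_smul_thetaBar (D : ResData A O x θ) (e : Fin μ → ↥(Rbar A O x b))
    (h : ∑ i, e i • D.thetaBar i = 0) : ∀ i, e i = 0 := by
  intro i
  have h1 := Fintype.linearIndependent_iff.1 D.linearIndependent_thetaBar
    (fun i => (e i : ResidueField ↥(OL (K := K) O x))) h i
  exact Subtype.ext h1

/-! ### The nilpotents -/

section Nil

variable {r : ℕ} (v : Fin r → Fin μ → K)

/-- `Y_k = ∑ v k i • θ i` lies in the disc ring. -/
theorem nil_mem_discRing (hS : Setup K A F O x) (hmem : ∀ i, θ i ∈ discRing A O x b)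
    (hvA : ∀ k i, v k i ∈ A) (k : Fin r) : (∑ i, v k i • θ i) ∈ discRing A O x b := by
  refine (discSubring A O x b).sum_mem fun i _ => ?_
  rw [Algebra.smul_def]
  exact (discSubring A O x b).mul_mem (const_mem_discRing hS b (hvA k i)) (hmem i)

/-- The reduction `ybar_k` of `Y_k = ∑ v k i • θ i`. -/
def nilBar (hS : Setup K A F O x) (hmem : ∀ i, θ i ∈ discRing A O x b)
    (hvA : ∀ k i, v k i ∈ A) (k : Fin r) : ResidueField ↥O :=
  residue ↥O ⟨∑ i, v k i • θ i, (nil_mem_discRing v hS hmem hvA k).1⟩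

/-- `hyB`: `ybar_k ∈ Sbar`. -/
theorem nilBar_mem_Sbar (hS : Setup K A F O x) (hmem : ∀ i, θ i ∈ discRing A O x b)
    (hvA : ∀ k i, v k i ∈ A) (k : Fin r) : nilBar v hS hmem hvA k ∈ Sbar A O x b :=
  residue_mem_Sbar A O x b (f := ⟨∑ i, v k i • θ i, (nil_mem_discRing v hS hmem hvA k).1⟩)
    (nil_mem_discRing v hS hmem hvA k)

/-- `ybar_k = ∑ red (v k i) • θbar_i`. -/
theorem nilBar_eq_sum (hS : Setup K A F O x) (D : ResData A O x θ)
    (hmem : ∀ i, θ i ∈ discRing A O x b) (hvA : ∀ k i, v k i ∈ A) (k : Fin r) :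
    nilBar v hS hmem hvA k = ∑ i, constRbar hS b ⟨v k i, hvA k i⟩ • D.thetaBar i := by
  have h1 : (∑ i, constRbar hS b ⟨v k i, hvA k i⟩ • D.thetaBar i) =
      ∑ i, residue ↥(OL (K := K) O x) (inclAL (x := x) hS.mem_iff ⟨v k i, hvA k i⟩) •
        D.thetaBar i := rfl
  rw [h1, D.sum_residue_smul_thetaBar, nilBar]
  congr 1
  apply Subtype.ext
  change ∑ i, v k i • θ i = ∑ i, algebraMap K F (v k i) * θ i
  exact Finset.sum_congr rfl fun i _ => Algebra.smul_def _ _

/-- `hyNil`: `ybar_k ^ m = ϖ • wbar` with `wbar ∈ Sbar`, when `Y_k ^ m = (x - b0) * w` with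
`w ∈ S_b` and `b0` in the residue disc of `b`. -/
theorem nilBar_pow (hS : Setup K A F O x) (hb : b ∈ A) (hmem : ∀ i, θ i ∈ discRing A O x b)
    (hvA : ∀ k i, v k i ∈ A) {b0 : K} (hb0 : b0 - b ∈ A.nonunits) {m : ℕ} (k : Fin r)
    (hnil : ∃ w ∈ discRing A O x b,
      (∑ i, v k i • θ i) ^ m = (x - algebraMap K F b0) * w) :
    ∃ w ∈ Sbar A O x b, nilBar v hS hmem hvA k ^ m = unif hS b hb • w := by
  obtain ⟨w, hw, hYw⟩ := hnil
  have hb0A : b0 ∈ A := mem_of_sub_mem_nonunits hb hb0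
  refine ⟨residue ↥O ⟨w, hw.1⟩, residue_mem_Sbar A O x b (f := ⟨w, hw.1⟩) hw, ?_⟩
  rw [Algebra.smul_def, algebraMap_Rbar_res, unif_coe, ← residue_subL_eq hS hb hb0A hb0,
    algebraMap_residue_OL, nilBar, ← map_pow, ← map_mul]
  congr 1
  apply Subtype.ext
  exact hYw

/-- `hyInd`: the `ybar_k` are linearly independent modulo `ϖ Sbar`. -/
theorem dvd_of_sum_nilBar [IsAlgClosed K] [CharZero K] (hA : A ≠ ⊤) (hS : Setup K A F O x)
    (hb : b ∈ A) (D : ResData A O x θ) (hmem : ∀ i, θ i ∈ discRing A O x b)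
    (hcoord : ∀ r : Fin μ → K⟮x⟯, (∑ i, (r i : F) * θ i) ∈ discRing A O x b →
      ∀ i, (r i : F) ∈ discRing A O x b)
    (hvA : ∀ k i, v k i ∈ A)
    (hvind : ∀ c : Fin r → K, (∀ i, (∑ k, c k • v k) i ∈ A.nonunits) → ∀ k, c k ∈ A.nonunits)
    (c : Fin r → ↥(Rbar A O x b))
    (h : ∃ w ∈ Sbar A O x b, ∑ k, c k • nilBar v hS hmem hvA k = unif hS b hb • w) :
    ∀ k, unif hS b hb ∣ c k := by
  obtain ⟨w, hw, hcw⟩ := h
  obtain ⟨ρ, hρ⟩ := exists_coeff_of_mem_Sbar D hcoord hw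
  -- coefficientwise comparison
  have hcoef : ∀ i, ∑ k, c k * constRbar hS b ⟨v k i, hvA k i⟩ = unif hS b hb * ρ i := by
    have h0 : ∑ i, (∑ k, c k * constRbar hS b ⟨v k i, hvA k i⟩ - unif hS b hb * ρ i) •
        D.thetaBar i = 0 := by
      have h1 : ∑ k, c k • nilBar v hS hmem hvA k =
          ∑ i, (∑ k, c k * constRbar hS b ⟨v k i, hvA k i⟩) • D.thetaBar i := by
        simp only [nilBar_eq_sum v hS D hmem hvA, Finset.smul_sum, smul_smul, Finset.sum_smul]
        exact Finset.sum_comm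
      have h2 : unif hS b hb • w = ∑ i, (unif hS b hb * ρ i) • D.thetaBar i := by
        rw [hρ, Finset.smul_sum]
        exact Finset.sum_congr rfl fun i _ => smul_smul _ _ _
      simp only [sub_smul, Finset.sum_sub_distrib]
      rw [← h1, ← h2, hcw, sub_self]
    intro i
    exact sub_eq_zero.1 (eq_zero_of_sum_smul_thetaBar D _ h0 i)
  -- constants modulo `ϖ`
  choose a ha using fun k => exists_const_dvd_sub hA hS hb (c k)
  choose t ht using ha
  have hck : ∀ k, c k = constRbar hS b (a k) + unif hS b hb * t k := fun k => by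
    rw [← ht k]; ring
  have hα : ∀ i, unif hS b hb ∣ constRbar hS b (∑ k, a k * ⟨v k i, hvA k i⟩) := by
    intro i
    refine ⟨ρ i - ∑ k, t k * constRbar hS b ⟨v k i, hvA k i⟩, ?_⟩
    rw [map_sum, mul_sub, ← hcoef i, Finset.mul_sum, ← Finset.sum_sub_distrib]
    refine Finset.sum_congr rfl fun k _ => ?_
    rw [map_mul, hck k]
    ring
  have hαm : ∀ i, (∑ k, (fun k => (a k : K)) k • v k) i ∈ A.nonunits := by
    intro i
    have h1 := (unif_dvd_constRbar_iff hA hS hb _).1 (hα i)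
    have h2 : ((∑ k, a k * ⟨v k i, hvA k i⟩ : ↥A) : K) = (∑ k, (a k : K) • v k) i := by
      rw [Finset.sum_apply]
      simp
    rw [← h2]
    exact h1
  have hak := hvind (fun k => (a k : K)) hαm
  intro k
  rw [hck k, (constRbar_eq_zero_iff hS b (a k)).2 (hak k), zero_add]
  exact dvd_mul_right _ _

end Nil

/-! ### Packaged form -/

/-- Any presentation of `ϖ = red (x - b)` is the uniformiser `unif`. -/
theorem eq_unif (hS : Setup K A F O x) (hb : b ∈ A) {xb : ↥(OL (K := K) O x)}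
    (hxb : ((xb : K⟮x⟯) : F) = x - algebraMap K F b) {ϖ : ↥(Rbar A O x b)}
    (hϖ : (ϖ : ResidueField ↥(OL (K := K) O x)) = residue ↥(OL (K := K) O x) xb) :
    ϖ = unif hS b hb := by
  apply Subtype.ext
  rw [hϖ, unif_coe]
  congr 1
  apply Subtype.ext
  apply Subtype.ext
  exact hxb

/-- **The nilpotent inputs `hyB`, `hyNil`, `hyInd` of `H8.discLocal`** for `O := Rbar`,
`B := Sbar`, from the data of `H49.KeyHyp` (`hmem`, `hcoord`: fields of `IsMinTuple`). -/
theorem exists_nilBar [IsAlgClosed K] [CharZero K] (hA : A ≠ ⊤) (hS : Setup K A F O x)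
    (hb : b ∈ A) (D : ResData A O x θ) (hmem : ∀ i, θ i ∈ discRing A O x b)
    (hcoord : ∀ r : Fin μ → K⟮x⟯, (∑ i, (r i : F) * θ i) ∈ discRing A O x b →
      ∀ i, (r i : F) ∈ discRing A O x b)
    {b0 : K} (hb0 : b0 - b ∈ A.nonunits) {r : ℕ} (v : Fin r → Fin μ → K)
    (hvA : ∀ k i, v k i ∈ A)
    (hvind : ∀ c : Fin r → K, (∀ i, (∑ k, c k • v k) i ∈ A.nonunits) → ∀ k, c k ∈ A.nonunits)
    {m : ℕ} (hnil : ∀ k, ∃ w ∈ discRing A O x b,
      (∑ i, v k i • θ i) ^ m = (x - algebraMap K F b0) * w)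
    {xb : ↥(OL (K := K) O x)} (hxb : ((xb : K⟮x⟯) : F) = x - algebraMap K F b)
    {ϖ : ↥(Rbar A O x b)}
    (hϖ : (ϖ : ResidueField ↥(OL (K := K) O x)) = residue ↥(OL (K := K) O x) xb) :
    ∃ y : Fin r → ResidueField ↥O,
      (∀ k, y k ∈ Sbar A O x b) ∧
      (∀ k, ∃ m : ℕ, ∃ w ∈ Sbar A O x b, y k ^ m = ϖ • w) ∧
      (∀ c : Fin r → ↥(Rbar A O x b),
        (∃ w ∈ Sbar A O x b, ∑ k, c k • y k = ϖ • w) → ∀ k, ϖ ∣ c k) := by
  rw [eq_unif hS hb hxb hϖ]
  exact ⟨nilBar v hS hmem hvA, nilBar_mem_Sbar v hS hmem hvA,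
    fun k => ⟨m, nilBar_pow v hS hb hmem hvA hb0 k (hnil k)⟩,
    fun c h => dvd_of_sum_nilBar v hA hS hb D hmem hcoord hvA hvind c h⟩

end Fermat.Agent.S18.H59
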