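/-
S18 / Program J, leaf C1, residue side (helper59): the Key Lemma.

* `key_closed` : (KEY) under `H49.KeyHyp A O x b`, the reduction `Sbar = red(S_b)` of the disc ring
                 contains every element of the residue field of `O` which is integral over
                 `Rbar = red(R_b)`  (landed local discriminant lemma `H8.discLocal`);
* `key_integral` : conversely the elements of `Sbar` are integral over `Rbar`;
* `key_ic`     : the node `key_ic` of the C1 sub-skeleton, VERBATIM.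
-/
import Fermat.Agent.S18.H59.KeyNil
import Fermat.Agent.S18.H8.DiscLocal
import Fermat.Agent.S18.H49.C1Defs
import Fermat.Agent.S18.H80.OfSetup

set_option autoImplicit false

open AlgebraicCurve IntermediateField Polynomial IsLocalRing

noncomputable section

namespace Fermat.Agent.S18.H59

open Fermat.Agent.S18.H74 Fermat.Agent.S18.H80 Fermat.Agent.S18.H5 Fermat.Agent.S18.H4
  Fermat.Agent.S18.H49

variable {K : Type*} [Field K] {A : ValuationSubring K} {F : Type*} [Field F] [Algebra K F]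
  {O : ValuationSubring F} {x : F}

/-- `x - c` is a unit of `O` for `c ∈ A`. -/
theorem x_sub_inv_mem (hS : Setup K A F O x) {c : K} (hc : c ∈ A) :
    (x - algebraMap K F c)⁻¹ ∈ O := by
  have h := (hS.gauss (X - C c) (isGaussPrim_X_sub_C hc).1 (isGaussPrim_X_sub_C hc).2).2
  simpa using h

/-- The residue data of the tuple of a `KeyHyp`. -/
theorem resData_of_factor (hA : A ≠ ⊤) (hS : Setup K A F O x) {b : K}
    (θ : Fin (Module.finrank K⟮x⟯ F) → F) (hθ : IsMinTuple A O x b θ) {b0 : K} (hb0 : b0 ∈ A)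
    {n : ℕ} {ε : K⟮x⟯}
    (hε : ((gramDet K F x θ : K⟮x⟯) : F) = (x - algebraMap K F b0) ^ n * (ε : F))
    (hε2 : (ε : F)⁻¹ ∈ discRing A O x b) : ResData A O x θ := by
  refine resData_of_setup hA hS θ hθ.on ?_
  rw [hε, mul_inv, ← inv_pow]
  exact O.mul_mem _ _ (pow_mem (x_sub_inv_mem hS hb0) n) hε2.1

/-- The elements of `Sbar` are integral over `Rbar`. -/
theorem isIntegral_of_mem_Sbar {b : K} {μ : ℕ} {θ : Fin μ → F} (D : ResData A O x θ)
    (hmem : ∀ i, θ i ∈ discRing A O x b)
    (hcoord : ∀ r : Fin μ → K⟮x⟯, (∑ i, (r i : F) * θ i) ∈ discRing A O x b →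
      ∀ i, (r i : F) ∈ discRing A O x b)
    {z : ResidueField ↥O} (hz : z ∈ Sbar A O x b) : IsIntegral ↥(Rbar A O x b) z := by
  classical
  have hfg : (Subalgebra.toSubmodule (Sbar A O x b)).FG := by
    refine ⟨Finset.univ.image D.thetaBar, ?_⟩
    apply le_antisymm
    · rw [Submodule.span_le]
      intro y hy
      simp only [Finset.coe_image, Finset.coe_univ, Set.image_univ, Set.mem_range] at hy
      obtain ⟨i, rfl⟩ := hy
      exact thetaBar_mem_Sbar D hmem i
    · intro y hy
      obtain ⟨c, rfl⟩ := exists_coeff_of_mem_Sbar D hcoord hy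
      exact Submodule.sum_mem _ fun i _ => Submodule.smul_mem _ _
        (Submodule.subset_span (by simp))
  exact IsIntegral.of_mem_of_fg (Sbar A O x b) hfg z hz

/-- **(KEY)**: `Sbar` is integrally closed in the residue field of `O` over `Rbar`, and integral
over `Rbar`. -/
theorem key_closed_integral [IsAlgClosed K] [CharZero K] (hA : A ≠ ⊤) (hS : Setup K A F O x)
    (b : K) (hb : b ∈ A) (hkey : KeyHyp A O x b) :
    (∀ z : ResidueField ↥O, IsIntegral ↥(Rbar A O x b) z → z ∈ Sbar A O x b) ∧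
      ∀ z ∈ Sbar A O x b, IsIntegral ↥(Rbar A O x b) z := by
  classical
  obtain ⟨θ, b0, n, ε, r, v, hθ, hb0, hε, hε1, hε2, hn, hvA, hvind, hnil⟩ := hkey
  have hb0A : b0 ∈ A := mem_of_sub_mem_nonunits hb hb0
  have D : ResData A O x θ := resData_of_factor hA hS θ hθ hb0A hε hε2
  refine ⟨?_, fun z hz => isIntegral_of_mem_Sbar D hθ.mem hθ.coord hz⟩
  have := isDVR_Rbar hA hS hb
  have := isFractionRing_Rbar hA hS hb
  have := D.finite_res
  -- the nilpotents
  obtain ⟨y, hyB, hyNil, hyInd⟩ := exists_nilBar hA hS hb D hθ.mem hθ.coord hb0 v hvA hvind hnil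
    (subL_coe hS b hb) (unif_coe hS b hb)
  -- the discriminant
  have hgF : (((D.gramO : ↥(OL (K := K) O x)) : K⟮x⟯) : F) =
      (x - algebraMap K F b0) ^ n * (ε : F) := by
    rw [← hε, D.coe_gramO]
    rfl
  have hgd : (((D.gramO : ↥(OL (K := K) O x)) : K⟮x⟯) : F) ∈ discRing A O x b := by
    rw [hgF]
    exact (discSubring A O x b).mul_mem
      ((discSubring A O x b).pow_mem (x_sub_mem_discRing hS b hb0A) n) hε1
  have hε0 : ε ≠ 0 := by
    rintro rfl
    have h0 : ((D.gramO : ↥(OL (K := K) O x)) : K⟮x⟯) = 0 := by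
      have h1 : ((((D.gramO : ↥(OL (K := K) O x)) : K⟮x⟯) : F)) = ((0 : K⟮x⟯) : F) := by
        rw [hgF]; simp
      exact Subtype.ext h1
    exact D.gramO_ne_zero (Subtype.ext h0)
  have hε2' : (((ε⁻¹ : K⟮x⟯) : K⟮x⟯) : F) ∈ discRing A O x b := by
    rw [IntermediateField.coe_inv]; exact hε2
  set εL : ↥(OL (K := K) O x) := ⟨ε, hε1.1⟩ with hεL
  set εL' : ↥(OL (K := K) O x) := ⟨ε⁻¹, hε2'.1⟩ with hεL'
  have hmulε : εL * εL' = 1 := Subtype.ext (mul_inv_cancel₀ hε0)
  have hgram : D.gramO = subL hS b0 hb0A ^ n * εL := by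
    apply Subtype.ext
    apply Subtype.ext
    rw [hgF]
    rfl
  set d : ↥(Rbar A O x b) := ⟨residue _ D.gramO, residue_mem_Rbar A O x b hgd⟩ with hd
  set εbar : ↥(Rbar A O x b) := ⟨residue _ εL, residue_mem_Rbar A O x b hε1⟩ with hεbar
  set εbar' : ↥(Rbar A O x b) := ⟨residue _ εL', residue_mem_Rbar A O x b hε2'⟩ with hεbar'
  have hεu : IsUnit εbar := by
    refine IsUnit.of_mul_eq_one εbar' ?_
    apply Subtype.ext
    change residue _ εL * residue _ εL' = 1
    rw [← map_mul, hmulε, map_one]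
  have hdeq : d = unif hS b hb ^ n * εbar := by
    apply Subtype.ext
    change residue _ D.gramO = (residue _ (subL hS b hb)) ^ n * residue _ εL
    rw [hgram, map_mul, map_pow, residue_subL_eq hS hb hb0A hb0]
  have hdr : ¬ unif hS b hb ^ (r + 1) ∣ d := by
    intro hdvd
    rw [hdeq, hεu.dvd_mul_right] at hdvd
    have := (pow_dvd_pow_iff (unif_ne_zero hA hS hb) (not_isUnit_unif hA hS hb)).1 hdvd
    omega
  have hdd : algebraMap ↥(Rbar A O x b) (ResidueField ↥(OL (K := K) O x)) d =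
      Algebra.discr (ResidueField ↥(OL (K := K) O x)) D.basisRes := D.residue_gramO
  refine Fermat.Agent.S18.H8.discLocal (Sbar A O x b) D.basisRes
    (fun i => by rw [D.basisRes_apply]; exact thetaBar_mem_Sbar D hθ.mem i)
    (fun z hz => by
      obtain ⟨c, hc⟩ := exists_coeff_of_mem_Sbar D hθ.coord hz
      exact ⟨c, by simp only [D.basisRes_apply]; exact hc⟩)
    (unif hS b hb) (irreducible_unif hA hS hb) r y hyB hyNil hyInd d hdd hdr

/-- **(KEY)**: every element of the residue field of `O` integral over `Rbar = red(R_b)` lies in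
`Sbar = red(S_b)`. -/
theorem key_closed [IsAlgClosed K] [CharZero K] (hA : A ≠ ⊤) (hS : Setup K A F O x)
    (b : K) (hb : b ∈ A) (hkey : KeyHyp A O x b) :
    ∀ z : ResidueField ↥O, IsIntegral ↥(Rbar A O x b) z → z ∈ Sbar A O x b :=
  (key_closed_integral hA hS b hb hkey).1

/-- The elements of `Sbar` are integral over `Rbar`. -/
theorem key_integral [IsAlgClosed K] [CharZero K] (hA : A ≠ ⊤) (hS : Setup K A F O x)
    (b : K) (hb : b ∈ A) (hkey : KeyHyp A O x b) :
    ∀ z ∈ Sbar A O x b, IsIntegral ↥(Rbar A O x b) z :=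
  (key_closed_integral hA hS b hb hkey).2

/-- **Key Lemma, output (IC)** = node `key_ic` of the C1 sub-skeleton, VERBATIM: `red(S_b)` is
closed under `m`-th roots in the residue field of `O`. -/
theorem key_ic [IsAlgClosed K] [CharZero K] (hA : A ≠ ⊤) (hS : Setup K A F O x)
    (b : K) (hb : b ∈ A) (hkey : KeyHyp A O x b) (m : ℕ) (hm : m ≠ 0) (y : F) (hy : y ∈ O)
    (w : F) (hw : w ∈ discRing A O x b) (hyw : y ^ m - w ∈ O.nonunits) :
    ∃ s ∈ discRing A O x b, y - s ∈ O.nonunits := by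
  obtain ⟨hcl, hint⟩ := key_closed_integral hA hS b hb hkey
  have h1 : residue ↥O ⟨y, hy⟩ ^ m = residue ↥O ⟨w, hw.1⟩ := by
    rw [← map_pow, ← sub_eq_zero, ← map_sub, residue_eq_zero_iff, mem_maximalIdeal_iff]
    exact hyw
  have hwint : IsIntegral ↥(Rbar A O x b) (residue ↥O ⟨w, hw.1⟩) :=
    hint _ (residue_mem_Sbar A O x b (f := ⟨w, hw.1⟩) hw)
  have hyint : IsIntegral ↥(Rbar A O x b) (residue ↥O ⟨y, hy⟩) := by
    rw [← h1] at hwint
    exact IsIntegral.of_pow (Nat.pos_of_ne_zero hm) hwint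
  obtain ⟨f, hf, hfy⟩ := (mem_Sbar A O x b).1 (hcl _ hyint)
  refine ⟨(f : F), hf, ?_⟩
  have h2 : residue ↥O (⟨y, hy⟩ - f) = 0 := by rw [map_sub, hfy, sub_self]
  rw [residue_eq_zero_iff, mem_maximalIdeal_iff] at h2
  exact h2

end Fermat.Agent.S18.H59
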