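/-
S18 / wave 4, leaf C1-ONE (helper59, backup of helper18): the skeleton leaf
`sum_ord_eq_zero_of_oneUnit` of `H74/Core.lean`, VERBATIM and unconditional.

A one-unit `y` of the Gauss valuation ring has degree `0` on every residue disc.

Wiring of the four landed inputs of `H18.sum_ord_eq_zero_of_oneUnit_of_inputs`:
* (FIB3) `H42.finite_ord_ne_zero`  : finitely many zeros and poles,
* (FIB5) `H17.norm_order`          : the norm-order formula,
* (N1)   `H59.norm_sub_one_mem`    : the norm of a one-unit is a one-unit of `K(x)`,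
* (N2)   `H59.oneUnit_ratio_count` : Gauss count for one-units of `K(x)`.
-/
import Fermat.Agent.S18.H18.OneUnit
import Fermat.Agent.S18.H42.FiniteOrd
import Fermat.Agent.S18.H17.NormOrder
import Fermat.Agent.S18.H59.NormOneUnit
import Fermat.Agent.S18.H59.RatCount

set_option autoImplicit false

open AlgebraicCurve IntermediateField Polynomial

noncomputable section

namespace Fermat.Agent.S18.H59

variable {K : Type*} [Field K] {A : ValuationSubring K} {F : Type*} [Field F] [Algebra K F]
  {O : ValuationSubring F} {x : F}

/-- **(L1') One-units have degree `0` on every residue disc** (leaf C1-ONE of the second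
skeleton layer, verbatim). -/
theorem sum_ord_eq_zero_of_oneUnit [IsAlgClosed K] [CharZero K] (hA : A ≠ ⊤)
    (hS : H74.Setup K A F O x) (b : K) (hb : b ∈ A) (y : F) (hy : y - 1 ∈ O.nonunits) :
    ∃ s : Finset (Place K F), (∀ P ∈ s, H74.InDisc A x b P) ∧
      (∀ P : Place K F, H74.InDisc A x b P → P.ord y ≠ 0 → P ∈ s) ∧ ∑ P ∈ s, P.ord y = 0 := by
  have hfd : FiniteDimensional K⟮x⟯ F := hS.finite
  exact H18.sum_ord_eq_zero_of_oneUnit_of_inputs b y hy
    (fun hx f hf => H42.finite_ord_ne_zero x hx hf)
    (fun hx f hf p q hq h c => H17.norm_order x hx hf p q hq h c)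
    (norm_sub_one_mem hA hS y hy)
    (fun r hr => oneUnit_ratio_count hA hS b hb r hr)

end Fermat.Agent.S18.H59
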